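/-
MAZUR / [MZ-A] (owner helper25): shared definitions of the analytic half.

* `mza_Ltau τ : PeriodPair`  : the period pair `(1, τ)` of a point `τ ∈ ℍ` (Mathlib's `℘[L]`, `℘'[L]`,
  `L.g₂`, `L.g₃` are then the classical functions of the lattice `ℤ + ℤ τ`);
* `mza_mulH p τ : ℍ`          : the point `p τ` (`p ≥ 1`);
* `mza_Uan p τ : ℂ`           : the analytic modular unit `Δ(τ) / Δ(p τ)`.

Mathlib only.  Prefix `mza_`, namespace `Fermat.Agent.MZ`.
-/
import Mathlib

set_option autoImplicit false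

open UpperHalfPlane Complex

namespace Fermat.Agent.MZ

/-- the period pair `(1, τ)` -/
noncomputable def mza_Ltau (τ : ℍ) : PeriodPair where
  ω₁ := 1
  ω₂ := (τ : ℂ)
  indep := by
    rw [LinearIndependent.pair_iff]
    intro s t h
    have him := congrArg Complex.im h
    have hre := congrArg Complex.re h
    simp only [Complex.real_smul, mul_one, Complex.add_im, Complex.ofReal_im, Complex.mul_im,
      Complex.ofReal_re, zero_mul, add_zero, zero_add, Complex.zero_im, Complex.add_re,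
      Complex.mul_re, sub_zero, Complex.zero_re] at him hre
    have ht : t = 0 := by
      rcases mul_eq_zero.mp him with h1 | h1
      · exact h1
      · exact absurd h1 (ne_of_gt τ.im_pos)
    subst ht
    simp only [zero_mul, add_zero] at hre
    exact ⟨hre, rfl⟩

@[simp] theorem mza_Ltau_ω₁ (τ : ℍ) : (mza_Ltau τ).ω₁ = 1 := rfl

@[simp] theorem mza_Ltau_ω₂ (τ : ℍ) : (mza_Ltau τ).ω₂ = (τ : ℂ) := rfl

theorem mza_mem_Ltau {τ : ℍ} {x : ℂ} :
    x ∈ (mza_Ltau τ).lattice ↔ ∃ m n : ℤ, (m : ℂ) + n * (τ : ℂ) = x := by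
  rw [PeriodPair.mem_lattice]
  simp only [mza_Ltau_ω₁, mza_Ltau_ω₂, mul_one]

/-- the point `p τ` of the upper half plane -/
noncomputable def mza_mulH (p : ℕ) [NeZero p] (τ : ℍ) : ℍ :=
  ⟨(p : ℂ) * (τ : ℂ), by
    have hp : (0 : ℝ) < (p : ℝ) := Nat.cast_pos.mpr (Nat.pos_of_ne_zero (NeZero.ne p))
    have : ((p : ℂ) * (τ : ℂ)).im = (p : ℝ) * τ.im := by
      simp [Complex.mul_im]
    rw [this]
    exact mul_pos hp τ.im_pos⟩

@[simp] theorem mza_coe_mulH (p : ℕ) [NeZero p] (τ : ℍ) :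
    ((mza_mulH p τ : ℍ) : ℂ) = (p : ℂ) * (τ : ℂ) := rfl

/-- the analytic modular unit `Δ(τ) / Δ(p τ)` -/
noncomputable def mza_Uan (p : ℕ) [NeZero p] (τ : ℍ) : ℂ :=
  ModularForm.discriminant τ / ModularForm.discriminant (mza_mulH p τ)

end Fermat.Agent.MZ
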